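import Mathlib
import Fermat.Agent.LT.T7.H57.ConstrQSpec

/-!
# Row LT, tower T7, leaf T7.L2Q.1.H2.2 `UnramQC57` (SPARE by helper644; row 2681, owner helper270)

OFF-MAIN.  Spec: `T7/H57/ConstrQSpec.lean` (helper57@origin, first cut of `ConstrQRC732`).
Imports ONLY Mathlib and the Spec (self-contained: one file to vendor).

    unramQC644 (F) : CQ57.UnramQC57 F            VERBATIM, UNCONDITIONAL

Proof.  `ζ = (θ - 1)/2`, `θ² = -3`, is integral with minimal polynomial `X² + X + 1` over `𝓞 ℚ`
(degree two: `ζ` is not rational) and generates `F` (degree two), so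
`2ζ + 1 = θ` lies in the different (`aeval_derivative_mem_differentIdeal`).  A place `w` which
divides the different contains `θ`, hence `3`, hence lies in `S'` (`3 ∈ S`,
`full_of_isL2QBase60`).  A place which does not divide the different is unramified
(`not_dvd_differentIdeal_iff`): a uniformiser of `v` is not in `w²`.
-/

set_option autoImplicit false
set_option linter.unusedSectionVars false
set_option linter.deprecated false

open AutomorphicForm IsDedekindDomain NumberField WithZero Polynomial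

noncomputable section

namespace Fermat.Agent.LT.T7.H644

open Fermat.Agent.LT.H556 Fermat.Agent.LT.H556.A0 Fermat.Agent.LT.T7

/-- `PlaceOver` gives `LiesOver`. -/
theorem liesOver_unram644 {K K' : Type} [Field K] [NumberField K] [Field K']
    [NumberField K'] [Algebra K K'] {v : HeightOneSpectrum (𝓞 K)}
    {w : HeightOneSpectrum (𝓞 K')} (h : PlaceOver K K' v w) :
    w.asIdeal.LiesOver v.asIdeal := by
  refine ⟨?_⟩
  ext x
  rw [Ideal.under_def, Ideal.mem_comap]
  exact h x (algebraMap (𝓞 K) (𝓞 K') x) rfl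

/-- An imaginary quadratic field has degree two. -/
theorem finrank_two_unram644 {F : Type} [Field F] [NumberField F] (h : IsImagQuad F) :
    Module.finrank ℚ F = 2 := by
  classical
  have h0 : InfinitePlace.nrRealPlaces F = 0 := by
    unfold InfinitePlace.nrRealPlaces
    rw [Fintype.card_eq_zero_iff]
    exact ⟨fun w => InfinitePlace.not_isReal_iff_isComplex.2 (h.2 w.1) w.2⟩
  have h1 : InfinitePlace.nrComplexPlaces F = 1 := by
    unfold InfinitePlace.nrComplexPlaces
    have hc : Fintype.card (InfinitePlace F) = 1 := by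
      rw [← Nat.card_eq_fintype_card]; exact h.1
    rw [← hc]
    exact Fintype.card_of_subtype Finset.univ (fun w => by simp [h.2 w])
  have := InfinitePlace.card_add_two_mul_card_eq_rank (K := F)
  rw [h0, h1] at this
  omega

/-- A place which does not divide the different is unramified: some element of `v` is not in
`w²`. -/
theorem exists_unif_of_not_dvd644 {K K' : Type} [Field K] [NumberField K] [Field K']
    [NumberField K'] [Algebra K K'] (v : HeightOneSpectrum (𝓞 K))
    (w : HeightOneSpectrum (𝓞 K')) (hvw : PlaceOver K K' v w)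
    (h1 : ¬ w.asIdeal ∣ differentIdeal (𝓞 K) (𝓞 K')) :
    ∃ x : 𝓞 K, x ∈ v.asIdeal ∧ algebraMap (𝓞 K) (𝓞 K') x ∉ w.asIdeal ^ 2 := by
  have hun : Algebra.IsUnramifiedAt (𝓞 K) w.asIdeal := not_dvd_differentIdeal_iff.1 h1
  have he : w.asIdeal.ramificationIdx (𝓞 K) = 1 :=
    Ideal.ramificationIdx_eq_one_of_isUnramifiedAt
  have := liesOver_unram644 hvw
  have he' : v.asIdeal.ramificationIdx' w.asIdeal = 1 := by
    rw [Ideal.ramificationIdx'_eq_ramificationIdx v.asIdeal w.asIdeal v.ne_bot]
    exact he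
  obtain ⟨x, hx⟩ := v.intValuation_exists_uniformizer
  have h2 := HeightOneSpectrum.intValuation_liesOver v w x
  rw [he', pow_one, hx] at h2
  refine ⟨x, ?_, ?_⟩
  · rw [← HeightOneSpectrum.intValuation_lt_one_iff_mem, hx, ← exp_zero, exp_lt_exp]
    omega
  · intro hmem
    have h3 := (HeightOneSpectrum.intValuation_le_pow_iff_mem w _ 2).2 hmem
    rw [← h2, exp_le_exp] at h3
    omega

variable {F : Type} [Field F] [NumberField F]

/-- In a quadratic field with a square root of `-3` the different contains this square root. -/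
theorem sqrt_mem_different644 (hd : Module.finrank ℚ F = 2) (θ : F) (hθ : θ * θ = -3) :
    ∃ t : 𝓞 F, t * t = -3 ∧ t ∈ differentIdeal (𝓞 ℚ) (𝓞 F) := by
  classical
  -- the cube root of unity
  set ζ : F := (θ - 1) / 2 with hζdef
  have hζ : ζ ^ 2 + ζ + 1 = 0 := by
    have : ζ ^ 2 + ζ + 1 = (θ * θ + 3) / 4 := by rw [hζdef]; ring
    rw [this, hθ]; norm_num
  have hθζ : θ = 2 * ζ + 1 := by rw [hζdef]; ring
  have hint : IsIntegral ℤ ζ := by
    refine ⟨X ^ 2 + X + 1, ?_, ?_⟩
    · monicity!
    · simp [hζ]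
  set z : 𝓞 F := ⟨ζ, hint⟩ with hzdef
  have hzF : algebraMap (𝓞 F) F z = ζ := rfl
  have hz : z ^ 2 + z + 1 = 0 := by
    apply RingOfIntegers.coe_injective
    show algebraMap (𝓞 F) F (z ^ 2 + z + 1) = algebraMap (𝓞 F) F 0
    rw [map_add, map_add, map_pow, map_one, map_zero, hzF]
    exact hζ
  -- `ζ` is not rational
  have hirr : ∀ q : ℚ, algebraMap ℚ F q ≠ ζ := by
    intro q hq
    have h1 : algebraMap ℚ F ((2 * q + 1) * (2 * q + 1)) = algebraMap ℚ F (-3) := by
      simp only [map_mul, map_add, map_one, map_neg, map_ofNat, hq]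
      rw [← hθζ, hθ]
    have h2 := (algebraMap ℚ F).injective h1
    nlinarith [sq_nonneg (2 * q + 1)]
  -- the minimal polynomial
  set P : (𝓞 ℚ)[X] := X ^ 2 + X + 1 with hP
  have hPm : P.Monic := by rw [hP]; monicity!
  have hPd : P.natDegree = 2 := by rw [hP]; compute_degree!
  have hPz : aeval z P = 0 := by simp [hP, hz]
  have hzint : IsIntegral (𝓞 ℚ) z := ⟨P, hPm, by simpa [aeval_def] using hPz⟩
  have hdvd : minpoly (𝓞 ℚ) z ∣ P := minpoly.isIntegrallyClosed_dvd hzint hPz
  have hdeg : 2 ≤ (minpoly (𝓞 ℚ) z).natDegree := by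
    rw [minpoly.two_le_natDegree_iff hzint]
    rintro ⟨a, ha⟩
    apply hirr (algebraMap (𝓞 ℚ) ℚ a)
    have : algebraMap (𝓞 F) F (algebraMap (𝓞 ℚ) (𝓞 F) a) = ζ := by
      rw [ha, hzF]
    rw [← this]
    exact (IsScalarTower.algebraMap_apply (𝓞 ℚ) ℚ F a).symm.trans
      (IsScalarTower.algebraMap_apply (𝓞 ℚ) (𝓞 F) F a)
  have hmin : minpoly (𝓞 ℚ) z = P := by
    symm
    exact (Polynomial.eq_of_monic_of_dvd_of_natDegree_le (minpoly.monic hzint) hPm hdvd
      (by rw [hPd]; exact hdeg))
  -- `ζ` generates `F`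
  have hgen : Algebra.adjoin ℚ {algebraMap (𝓞 F) F z} = ⊤ := by
    rw [hzF]
    have hfd : FiniteDimensional ℚ F := inferInstance
    have hintQ : IsIntegral ℚ ζ := hint.tower_top
    have hdegQ : 2 ≤ (minpoly ℚ ζ).natDegree := by
      rw [minpoly.two_le_natDegree_iff hintQ]
      rintro ⟨q, hq⟩
      exact hirr q hq
    have hle : (minpoly ℚ ζ).natDegree ≤ 2 := by
      rw [← hd]
      exact minpoly.natDegree_le ζ
    have htop : IntermediateField.adjoin ℚ {ζ} = ⊤ := by
      rw [Field.primitive_element_iff_minpoly_natDegree_eq, hd]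
      omega
    have := congrArg IntermediateField.toSubalgebra htop
    rw [IntermediateField.adjoin_simple_toSubalgebra_of_isAlgebraic hintQ.isAlgebraic] at this
    simpa using this
  have hmem := aeval_derivative_mem_differentIdeal (𝓞 ℚ) ℚ F z hgen
  rw [hmin] at hmem
  have hder : aeval z (derivative P) = 2 * z + 1 := by
    simp [hP]
    exact Or.inl (by norm_num)
  rw [hder] at hmem
  refine ⟨2 * z + 1, ?_, hmem⟩
  have : (2 * z + 1) * (2 * z + 1) = 4 * (z ^ 2 + z + 1) - 3 := by ring
  rw [this, hz]; ring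

/-- **LEAF T7.L2Q.1.H2.2 = UNRAM** (`CQ57.UnramQC57 F`, VERBATIM). -/
theorem unramQC644 (F : Type) [Field F] [NumberField F] : CQ57.UnramQC57 F := by
  intro h3 hquad Φ B hB hram v w hvw hw
  obtain ⟨θ, hθ⟩ := h3
  obtain ⟨t, ht, htmem⟩ := sqrt_mem_different644 (finrank_two_unram644 hquad) θ hθ
  refine exists_unif_of_not_dvd644 v w hvw (fun hdvd => hw ?_)
  have htw : t ∈ w.asIdeal := (Ideal.dvd_iff_le.1 hdvd) htmem
  have h3w : ((3 : ℕ) : 𝓞 F) ∈ w.asIdeal := by
    have h1 : t * t ∈ w.asIdeal := w.asIdeal.mul_mem_left t htw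
    rw [ht] at h1
    have h2 := w.asIdeal.neg_mem h1
    rw [neg_neg] at h2
    exact_mod_cast h2
  exact L2Q.H60.full_of_isL2QBase60 hB 3 Nat.prime_three hram w h3w

end Fermat.Agent.LT.T7.H644

end
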