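import Mathlib
import Fermat.Agent.LT.T7.P51.ConvAvgSpec

/-!
# Row LT, tower T7, node `ConvAvgC51` (second sub-cut of helper51): EIGHT SMALL LEAVES

OFF-MAIN.  Spec: `T7/P51/ConvAvgSpec.lean` (helper51@0cc224cc9, sha256 dc819a38).  Imports ONLY
Mathlib and the Spec.

    locConvExC644         : P51.LocConvExC51          (P.G2.3)
    unitConvC644          : P51.UnitConvC51           (P.G2.4, row 2935)
    unitRegC644           : P51.UnitRegC51            (P.G2.10, row 2936)
    testSmulC644 (F)      : P51.TestSmulC51 F         (P.G2.2)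
    overFinC644 (K K')    : P51.OverFinC51 K K'       (P.G2.7)
    belowUniqC644 (K K')  : P51.BelowUniqC51 K K'     (P.G2.8)
    belowExC644 (K K')    : P51.BelowExC51 K K'       (P.G2.11)
    totCplxUpC644 (K K')  : P51.TotCplxUpC51 K K'     (P.G2.9)

all VERBATIM, UNCONDITIONAL.
-/

set_option autoImplicit false
set_option linter.unusedSectionVars false
set_option linter.unusedVariables false
set_option linter.deprecated false
set_option linter.style.haveILetI false

open AutomorphicForm IsDedekindDomain NumberField MeasureTheory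
open scoped ContDiff

noncomputable section

namespace Fermat.Agent.LT.T7.H644

open Fermat.Agent.LT.H556 Fermat.Agent.LT.H556.A0 Fermat.Agent.LT.T7
open Fermat.Agent.LT.T7.H305 Fermat.Agent.LT.T7.H893

/-! ## 1. The local leaves -/

section Local

variable {k : Type} [Field k] [Valued k T6.Γ₀]

theorem exp_neg_le_one644c (n : ℕ) : (WithZero.exp (-(n : ℤ)) : T6.Γ₀) ≤ 1 := by
  rw [← WithZero.exp_zero]
  exact WithZero.exp_le_exp.mpr (by omega)

/-- The entries of `M - 1` have valuation at most `exp (-n)`. -/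
def Near644c (n : ℕ) (M : Matrix (Fin 2) (Fin 2) k) : Prop :=
  ∀ i j : Fin 2, Valued.v (M i j - (1 : Matrix (Fin 2) (Fin 2) k) i j) ≤ WithZero.exp (-(n : ℤ))

theorem inU_iff644c (n : ℕ) (g : GL (Fin 2) k) :
    T6.InU n g ↔ Near644c n (g : Matrix (Fin 2) (Fin 2) k) ∧
      Near644c n ((g⁻¹ : GL (Fin 2) k) : Matrix (Fin 2) (Fin 2) k) :=
  ⟨fun h => ⟨fun i j => (h i j).1, fun i j => (h i j).2⟩, fun h i j => ⟨h.1 i j, h.2 i j⟩⟩

theorem near_mul644c (n : ℕ) {A B : Matrix (Fin 2) (Fin 2) k} (hA : Near644c n A)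
    (hB : Near644c n B) : Near644c n (A * B) := by
  intro i j
  have e : A * B - 1 = (A - 1) * (B - 1) + (A - 1) + (B - 1) := by noncomm_ring
  have e' : (A * B) i j - (1 : Matrix (Fin 2) (Fin 2) k) i j
      = ((A - 1) * (B - 1)) i j + (A i j - (1 : Matrix (Fin 2) (Fin 2) k) i j)
        + (B i j - (1 : Matrix (Fin 2) (Fin 2) k) i j) := by
    have := congrFun (congrFun e i) j
    simpa [Matrix.sub_apply, Matrix.add_apply] using this
  rw [e']
  refine Valuation.map_add_le _ (Valuation.map_add_le _ ?_ (hA i j)) (hB i j)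
  rw [Matrix.mul_apply]
  refine Valuation.map_sum_le _ (fun l _ => ?_)
  rw [Valuation.map_mul]
  calc Valued.v ((A - 1) i l) * Valued.v ((B - 1) l j)
      ≤ WithZero.exp (-(n : ℤ)) * 1 :=
        mul_le_mul' (by simpa [Matrix.sub_apply] using hA i l)
          (le_trans (by simpa [Matrix.sub_apply] using hB l j) (exp_neg_le_one644c n))
    _ = WithZero.exp (-(n : ℤ)) := mul_one _

theorem inU_mul644c (n : ℕ) (g h : GL (Fin 2) k) (hg : T6.InU n g) (hh : T6.InU n h) :
    T6.InU n (g * h) := by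
  rw [inU_iff644c] at hg hh ⊢
  refine ⟨?_, ?_⟩
  · rw [Units.val_mul]
    exact near_mul644c n hg.1 hh.1
  · rw [mul_inv_rev, Units.val_mul]
    exact near_mul644c n hh.2 hg.2

theorem inU_inv644c (n : ℕ) (g : GL (Fin 2) k) (hg : T6.InU n g) : T6.InU n g⁻¹ := by
  rw [inU_iff644c] at hg ⊢
  rw [inv_inv]
  exact ⟨hg.2, hg.1⟩

theorem inU_one644c (n : ℕ) : T6.InU n (1 : GL (Fin 2) k) := by
  intro i j
  simp

theorem unitFn_one644c (n : ℕ) : unitFn893 (k := k) n 1 = 1 := by
  classical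
  unfold unitFn893
  rw [if_pos (inU_one644c n)]

theorem unitFn_ne_zero644c (n : ℕ) {g : GL (Fin 2) k} (h : unitFn893 n g ≠ 0) : T6.InU n g := by
  classical
  unfold unitFn893 at h
  by_contra hg
  rw [if_neg hg] at h
  exact h rfl

end Local

/-- **LEAF P.G2.4 = UNIT-CONV** (`P51.UnitConvC51`, VERBATIM). -/
theorem unitConvC644 : P51.UnitConvC51 := by
  classical
  intro k _ _ n X _ g
  refine ⟨{1}, ?_, ?_, ?_⟩
  · intro h hh h' hh' _
    rw [Finset.mem_singleton] at hh hh'
    rw [hh, hh']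
  · intro h hne
    have h1 : unitFn893 n h ≠ 0 := fun h0 => hne (by rw [h0, zero_mul])
    exact ⟨1, Finset.mem_singleton_self _, h, unitFn_ne_zero644c n h1, (one_mul h).symm⟩
  · rw [Finset.sum_singleton, unitFn_one644c, one_mul, inv_one, one_mul]

/-- **LEAF P.G2.10 = UNIT-REG** (`P51.UnitRegC51`, VERBATIM). -/
theorem unitRegC644 : P51.UnitRegC51 := by
  classical
  intro k _ _ n
  refine ⟨?_, ⟨{1}, ?_⟩⟩
  · intro u u' g hu hu'
    have hiff : T6.InU n (u * g * u') ↔ T6.InU n g := by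
      constructor
      · intro h
        have h1 := inU_mul644c n _ _ (inU_mul644c n _ _ (inU_inv644c n u hu) h)
          (inU_inv644c n u' hu')
        have e : u⁻¹ * (u * g * u') * u'⁻¹ = g := by group
        rwa [e] at h1
      · intro h
        exact inU_mul644c n _ _ (inU_mul644c n _ _ hu h) hu'
    unfold unitFn893
    by_cases hg : T6.InU n g
    · rw [if_pos hg, if_pos (hiff.2 hg)]
    · rw [if_neg hg, if_neg (fun h => hg (hiff.1 h))]
  · intro g hg
    exact ⟨1, Finset.mem_singleton_self _, g, unitFn_ne_zero644c n hg, (one_mul g).symm⟩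

/-- A finite set has a system of representatives modulo `U(n)` on the right. -/
theorem exists_reps644c {k : Type} [Field k] [Valued k T6.Γ₀] (n : ℕ)
    (F : Finset (GL (Fin 2) k)) :
    ∃ R : Finset (GL (Fin 2) k),
      (∀ h ∈ R, ∀ h' ∈ R, (∃ u : GL (Fin 2) k, T6.InU n u ∧ h' = h * u) → h = h') ∧
      ∀ x ∈ F, ∃ h' ∈ R, ∃ u : GL (Fin 2) k, T6.InU n u ∧ x = h' * u := by
  classical
  induction F using Finset.induction_on with
  | empty => exact ⟨∅, fun h hh => absurd hh (Finset.notMem_empty h),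
      fun x hx => absurd hx (Finset.notMem_empty x)⟩
  | insert a F _ ih =>
    obtain ⟨R, hR1, hR2⟩ := ih
    by_cases ha : ∃ h' ∈ R, ∃ u : GL (Fin 2) k, T6.InU n u ∧ a = h' * u
    · refine ⟨R, hR1, fun x hx => ?_⟩
      rcases Finset.mem_insert.1 hx with h1 | h1
      · rw [h1]; exact ha
      · exact hR2 x h1
    · refine ⟨insert a R, ?_, ?_⟩
      · intro h hh h' hh' ⟨u, hu, e⟩
        rcases Finset.mem_insert.1 hh with h1 | h1
        · rcases Finset.mem_insert.1 hh' with h2 | h2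
          · rw [h1, h2]
          · exfalso
            refine ha ⟨h', h2, u⁻¹, inU_inv644c n u hu, ?_⟩
            rw [← h1, e]; group
        · rcases Finset.mem_insert.1 hh' with h2 | h2
          · exfalso
            exact ha ⟨h, h1, u, hu, by rw [← h2, e]⟩
          · exact hR1 h h1 h' h2 ⟨u, hu, e⟩
      · intro x hx
        rcases Finset.mem_insert.1 hx with h1 | h1
        · exact ⟨a, Finset.mem_insert_self _ _, 1, inU_one644c n, by rw [h1, mul_one]⟩
        · obtain ⟨h', hh', u, hu, e⟩ := hR2 x h1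
          exact ⟨h', Finset.mem_insert_of_mem hh', u, hu, e⟩

/-- **LEAF P.G2.3 = LOC-CONV-EX** (`P51.LocConvExC51`, VERBATIM). -/
theorem locConvExC644 : P51.LocConvExC51 := by
  classical
  intro k _ _ n φ ψ _ hφ _ _
  obtain ⟨F, hF⟩ := hφ
  obtain ⟨R, hR1, hR2⟩ := exists_reps644c n F
  refine ⟨fun g => ∑ h ∈ R, φ h * ψ (h⁻¹ * g), fun g => ⟨R, hR1, fun h hne => ?_, rfl⟩⟩
  have h1 : φ h ≠ 0 := fun h0 => hne (by rw [h0, zero_mul])
  obtain ⟨x, hx, u, hu, e⟩ := hF h h1
  obtain ⟨h', hh', u', hu', e'⟩ := hR2 x hx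
  exact ⟨h', hh', u' * u, inU_mul644c n _ _ hu' hu, by rw [e, e', mul_assoc]⟩

/-! ## 2. Scalar multiples of test functions -/

/-- **LEAF P.G2.2 = TEST-SMUL** (`P51.TestSmulC51 F`, VERBATIM). -/
theorem testSmulC644 (F : Type) [Field F] [NumberField F] : P51.TestSmulC51 F := by
  intro 𝔫 φ c hφ
  refine ⟨hφ.ktype, continuous_const.mul hφ.cont, ?_, ?_, ?_⟩
  · exact HasCompactSupport.mul_left (f := fun _ => c) hφ.supp
  · intro n h h1 h2 g
    exact contDiff_const.mul (hφ.smooth n h h1 h2 g)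
  · refine ⟨?_, ?_, ?_, ?_⟩
    · intro u hu g
      show c * φ (g * u) = c * φ g
      rw [hφ.inv.level_right u hu g]
    · intro u hu g
      show c * φ (u * g) = c * φ g
      rw [hφ.inv.level_left u hu g]
    · intro w k hk g
      show c * φ (g * k) = _ * (c * φ g)
      rw [hφ.inv.arch_right w k hk g]
      ring
    · intro w k hk g
      show c * φ (k * g) = _ * (c * φ g)
      rw [hφ.inv.arch_left w k hk g]
      ring

/-! ## 3. The places -/

section Places

variable {K K' : Type} [Field K] [NumberField K] [Field K'] [NumberField K'] [Algebra K K']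

/-- The place of `K` under a place of `K'`. -/
def underC644 (w : HeightOneSpectrum (𝓞 K')) : HeightOneSpectrum (𝓞 K) where
  asIdeal := Ideal.comap (algebraMap (𝓞 K) (𝓞 K')) w.asIdeal
  isPrime := Ideal.comap_isPrime _ _
  ne_bot := Ideal.IsIntegral.comap_ne_bot (𝓞 K) w.ne_bot

theorem placeOver_underC644 (w : HeightOneSpectrum (𝓞 K')) :
    PlaceOver K K' (underC644 (K := K) w) w := by
  intro x y hxy
  have hy : y = algebraMap (𝓞 K) (𝓞 K') x := by
    apply RingOfIntegers.ext
    exact hxy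
  rw [hy]
  exact Ideal.mem_comap

theorem eq_underC644 {v : HeightOneSpectrum (𝓞 K)} {w : HeightOneSpectrum (𝓞 K')}
    (h : PlaceOver K K' v w) : v = underC644 (K := K) w := by
  apply HeightOneSpectrum.ext
  ext x
  rw [show (underC644 (K := K) w).asIdeal = Ideal.comap (algebraMap (𝓞 K) (𝓞 K')) w.asIdeal
    from rfl, Ideal.mem_comap]
  exact h x _ rfl

theorem liesOver_C644 {v : HeightOneSpectrum (𝓞 K)} {w : HeightOneSpectrum (𝓞 K')}
    (h : PlaceOver K K' v w) : w.asIdeal.LiesOver v.asIdeal := by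
  refine ⟨?_⟩
  ext x
  rw [Ideal.under_def, Ideal.mem_comap]
  exact h x (algebraMap (𝓞 K) (𝓞 K') x) rfl

/-- The finite set of the places over `v`. -/
theorem exists_fibreC644 (v : HeightOneSpectrum (𝓞 K)) :
    ∃ P : Finset (HeightOneSpectrum (𝓞 K')),
      ∀ w' : HeightOneSpectrum (𝓞 K'), w' ∈ P ↔ PlaceOver K K' v w' := by
  classical
  haveI := v.isPrime
  have hfin : (v.asIdeal.primesOver (𝓞 K')).Finite := IsDedekindDomain.primesOver_finite _ _
  have hinj : Set.InjOn (fun w' : HeightOneSpectrum (𝓞 K') => w'.asIdeal)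
      {w' | PlaceOver K K' v w'} := fun a _ b _ hab => HeightOneSpectrum.ext hab
  have hsub : (fun w' : HeightOneSpectrum (𝓞 K') => w'.asIdeal) '' {w' | PlaceOver K K' v w'}
      ⊆ v.asIdeal.primesOver (𝓞 K') := by
    rintro _ ⟨w', hw', rfl⟩
    exact ⟨w'.isPrime, liesOver_C644 hw'⟩
  have hfin' : {w' : HeightOneSpectrum (𝓞 K') | PlaceOver K K' v w'}.Finite :=
    Set.Finite.of_finite_image (hfin.subset hsub) hinj
  exact ⟨hfin'.toFinset, fun w' => by simp⟩

variable (K K')

/-- **LEAF P.G2.7 = OVER-FIN** (`P51.OverFinC51 K K'`, VERBATIM). -/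
theorem overFinC644 : P51.OverFinC51 K K' := by
  classical
  intro T
  choose P hP using fun v : HeightOneSpectrum (𝓞 K) => exists_fibreC644 (K' := K') v
  refine ⟨T.biUnion P, fun w => ?_⟩
  rw [Finset.mem_biUnion]
  exact ⟨fun ⟨v, hv, hw⟩ => ⟨v, hv, (hP v w).1 hw⟩, fun ⟨v, hv, hw⟩ => ⟨v, hv, (hP v w).2 hw⟩⟩

/-- **LEAF P.G2.8 = BELOW-UNIQ** (`P51.BelowUniqC51 K K'`, VERBATIM). -/
theorem belowUniqC644 : P51.BelowUniqC51 K K' := by
  intro v v' w h h'
  rw [eq_underC644 h, eq_underC644 h']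

/-- **LEAF P.G2.11 = BELOW-EX** (`P51.BelowExC51 K K'`, VERBATIM). -/
theorem belowExC644 : P51.BelowExC51 K K' :=
  fun w => ⟨underC644 (K := K) w, placeOver_underC644 w⟩

/-- **LEAF P.G2.9 = TOT-CPLX-UP** (`P51.TotCplxUpC51 K K'`, VERBATIM). -/
theorem totCplxUpC644 : P51.TotCplxUpC51 K K' := by
  intro hK w
  rw [← InfinitePlace.not_isReal_iff_isComplex]
  intro hw
  have h1 : (w.comap (algebraMap K K')).IsReal := InfinitePlace.IsReal.comap _ hw
  exact (InfinitePlace.not_isReal_iff_isComplex.2 (hK _)) h1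

end Places

end Fermat.Agent.LT.T7.H644

end
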