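import Mathlib
import Fermat.Agent.LT.T7.P51.ProdMtSpec

/-!
# Row LT, tower T7, node `ProdMtCb` (spare cut of helper51): the three BOOKKEEPING leaves

OFF-MAIN.  Spec: `T7/P51/ProdMtSpec.lean` (helper51@818b57489, sha256 4b4a6c6c).  Imports ONLY
Mathlib and the Spec.

    unramC644     (K K') : P51.UnramC51 K K'         VERBATIM, UNCONDITIONAL
    levelAtC644   (K K') : P51.LevelAtC51 K K'       VERBATIM, UNCONDITIONAL
    levelUniqC644        : P51.LevelUniqC51          VERBATIM, UNCONDITIONAL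
-/

set_option autoImplicit false
set_option linter.unusedSectionVars false
set_option linter.deprecated false

open AutomorphicForm IsDedekindDomain NumberField WithZero

noncomputable section

namespace Fermat.Agent.LT.T7.H644

open Fermat.Agent.LT.H556 Fermat.Agent.LT.H556.A0 Fermat.Agent.LT.T7
open Fermat.Agent.LT.T7.H305 Fermat.Agent.LT.T7.H893

section OneField

variable {F : Type} [Field F] [NumberField F]

/-- The valuation in the completion of the image of an integer. -/
theorem valued_int_book644 (v : HeightOneSpectrum (𝓞 F)) (a : 𝓞 F) :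
    Valued.v (algebraMap F (v.adicCompletion F) (algebraMap (𝓞 F) F a)) = v.intValuation a := by
  have h : Valued.v (algebraMap F (v.adicCompletion F) (algebraMap (𝓞 F) F a))
      = v.valuation F (algebraMap (𝓞 F) F a) :=
    HeightOneSpectrum.valuedAdicCompletion_eq_valuation' v _
  rw [h, HeightOneSpectrum.valuation_of_algebraMap]

/-- The exponent of a level vanishes at a place which does not contain the level. -/
theorem level_zero_book644 {𝔫 : Ideal (𝓞 F)} {m : HeightOneSpectrum (𝓞 F) → ℕ}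
    (hm : IsLevelOf893 𝔫 m) (v : HeightOneSpectrum (𝓞 F)) (a : 𝓞 F) (ha : a ∈ 𝔫)
    (hav : a ∉ v.asIdeal) : m v = 0 := by
  have h1 : algebraMap F (v.adicCompletion F) (algebraMap (𝓞 F) F a) ∈ idealClosure 𝔫 v :=
    subset_closure ⟨a, ha, rfl⟩
  have h2 := (hm v _).1 h1
  rw [valued_int_book644] at h2
  have h3 : v.intValuation a = 1 := by
    by_contra hne
    exact hav ((HeightOneSpectrum.intValuation_lt_one_iff_mem v a).1
      (lt_of_le_of_ne (HeightOneSpectrum.intValuation_le_one v a) hne))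
  rw [h3, ← exp_zero, exp_le_exp] at h2
  omega

/-- An element of the level outside the place. -/
theorem exists_not_mem_book644 {𝔫 : Ideal (𝓞 F)} {v : HeightOneSpectrum (𝓞 F)}
    (h : ¬ v.asIdeal ∣ 𝔫) : ∃ a : 𝓞 F, a ∈ 𝔫 ∧ a ∉ v.asIdeal := by
  by_contra hcon
  push Not at hcon
  exact h (Ideal.dvd_iff_le.2 fun a ha => hcon a ha)

end OneField

variable (K K' : Type) [Field K] [NumberField K] [Field K'] [NumberField K'] [Algebra K K']

/-- **LEAF P.3 = LEVEL-UNIQ** (`P51.LevelUniqC51`, VERBATIM). -/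
theorem levelUniqC644 : P51.LevelUniqC51 := by
  intro F _ _ 𝔫 m m' hm hm'
  funext v
  obtain ⟨π, hπ⟩ := v.valuation_exists_uniformizer F
  have key : ∀ (a b : HeightOneSpectrum (𝓞 F) → ℕ), IsLevelOf893 𝔫 a → IsLevelOf893 𝔫 b →
      b v ≤ a v := by
    intro a b ha hb
    set x : v.adicCompletion F := algebraMap F (v.adicCompletion F) (π ^ (a v)) with hx
    have hval : Valued.v x = exp (-(a v : ℤ)) := by
      have h : Valued.v (algebraMap F (v.adicCompletion F) (π ^ (a v)))
          = v.valuation F (π ^ (a v)) :=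
        HeightOneSpectrum.valuedAdicCompletion_eq_valuation' v _
      rw [hx, h, map_pow, hπ, ← exp_nsmul]
      congr 1
      simp
    have h1 : x ∈ idealClosure 𝔫 v := (ha v x).2 (le_of_eq hval)
    have h2 := (hb v x).1 h1
    rw [hval, exp_le_exp] at h2
    omega
  exact le_antisymm (key m' m hm' hm) (key m m' hm hm')

/-- **LEAF P.2 = LEVEL-AT** (`P51.LevelAtC51 K K'`, VERBATIM). -/
theorem levelAtC644 : P51.LevelAtC51 K K' := by
  intro 𝔫 T₀ n m hT₀ hm hn
  refine ⟨fun v hv => ?_, fun v w hv hvw => ?_⟩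
  · obtain ⟨a, ha, hav⟩ := exists_not_mem_book644 (fun h => hv ((hT₀ v).2 h))
    exact level_zero_book644 hm v a ha hav
  · obtain ⟨a, ha, hav⟩ := exists_not_mem_book644 (fun h => hv ((hT₀ v).2 h))
    refine level_zero_book644 hn w (algebraMap (𝓞 K) (𝓞 K') a) (Ideal.mem_map_of_mem _ ha) ?_
    intro hmem
    exact hav ((hvw a (algebraMap (𝓞 K) (𝓞 K') a) rfl).2 hmem)

/-- **LEAF P.1 = UNRAM** (`P51.UnramC51 K K'`, VERBATIM). -/
theorem unramC644 : P51.UnramC51 K K' := by
  intro B 𝔫 T₀ hram hS' hT₀ v hv w hvw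
  refine hram v w hvw (fun hw => hv ((hT₀ v).2 ?_))
  have h1 : upI (K' := K') 𝔫 ≤ w.asIdeal := Ideal.dvd_iff_le.1 ((hS' w).1 hw)
  rw [Ideal.dvd_iff_le]
  intro a ha
  have h2 : algebraMap (𝓞 K) (𝓞 K') a ∈ w.asIdeal := h1 (Ideal.mem_map_of_mem _ ha)
  exact (hvw a (algebraMap (𝓞 K) (𝓞 K') a) rfl).2 h2

end Fermat.Agent.LT.T7.H644

end
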