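import Mathlib

/-!
# Row LT, tower T7, leaf T7.L2.1.C0 `SetupC` (owner helper644): the two number-theoretic leaves

OFF-MAIN.  Frozen Props only, MATHLIB ONLY (no vocabulary of the tower).  ADDITIVE (new names).
The proved top is `Setup.lean` (same directory):

    setupC_of644 : MovedPlaceC644 → GalTransC644 → H893.SetupC K K'

* `MovedPlaceC644` (leaf C0.a): a ring automorphism `σ ≠ 1` of a number field moves a prime
  ideal outside any given finite set.
  Proof (elementary).  Let `α ∈ 𝒪` with `σ α ≠ α` and `M = ∏_{w ∈ T} N(w)` (`M ∈ w` for `w ∈ T`: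
  `Ideal.absNorm_mem`).  For `t ∈ ℤ` put `β_t = M (α + t) + 1`: no `w ∈ T` contains `β_t`.  If
  `σ` fixes every prime outside `T`, it fixes every prime factor of `(β_t)`, hence the ideal
  `(β_t)` (`Ideal.prod_normalizedFactors_eq_self`, `Ideal.mapHom`), so `β_t ∣ σ β_t - β_t
  = M (σ α - α) = δ ≠ 0` and `N(β_t) ∣ N(δ) ≠ 0` for ALL `t ∈ ℤ`; but `t ↦ N(β_t)`
  (`Algebra.norm ℤ`) is a polynomial in `t` of degree `[K' : ℚ] ≥ 1` (the characteristic
  polynomial of the matrix of the multiplication, `Algebra.norm_eq_matrix_det`), which takes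
  every value finitely often, and `N(δ)` has finitely many divisors.  Contradiction.
  (Or: Chebotarev.)
* `GalTransC644` (leaf C0.b): the Galois group acts transitively on the primes over a prime,
  in the form of `T7.PlaceOver` (written out).
  Proof.  `Algebra.IsInvariant.exists_smul_of_under_eq (𝓞 K) (𝓞 K') Gal(K'/K)` (Mathlib:
  `IsGaloisGroup G (𝓞 K) (𝓞 L)`, `Mathlib/FieldTheory/Galois/IsGaloisGroup.lean`), then the
  pointwise action on ideals is `Ideal.map` of the restriction.
-/

set_option autoImplicit false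

open IsDedekindDomain NumberField

noncomputable section

namespace Fermat.Agent.LT.T7.H644

/-- **LEAF T7.L2.1.C0.a = MOVED PLACE.**  A ring automorphism `σ ≠ 1` of a number field `K'`
moves a prime ideal of `𝒪_{K'}` outside any given finite set `T`. -/
def MovedPlaceC644 : Prop :=
  ∀ (K' : Type) [Field K'] [NumberField K'] (σ : K' ≃+* K'), (∃ x : K', σ x ≠ x) →
    ∀ T : Finset (HeightOneSpectrum (𝓞 K')),
      ∃ w : HeightOneSpectrum (𝓞 K'), w ∉ T ∧
        Ideal.map (NumberField.RingOfIntegers.mapRingEquiv σ) w.asIdeal ≠ w.asIdeal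

/-- **LEAF T7.L2.1.C0.b = TRANSITIVITY.**  For a Galois extension `K'/K` of number fields the
Galois group acts transitively on the primes of `K'` over a prime `v` of `K` (the relation
"`w` lies over `v`" is `T7.PlaceOver`, written out). -/
def GalTransC644 : Prop :=
  ∀ (K K' : Type) [Field K] [NumberField K] [Field K'] [NumberField K'] [Algebra K K'],
    IsGalois K K' →
    ∀ (v : HeightOneSpectrum (𝓞 K)) (w w' : HeightOneSpectrum (𝓞 K')),
      (∀ (x : 𝓞 K) (y : 𝓞 K'), (y : K') = algebraMap K K' (x : K) →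
        (x ∈ v.asIdeal ↔ y ∈ w.asIdeal)) →
      (∀ (x : 𝓞 K) (y : 𝓞 K'), (y : K') = algebraMap K K' (x : K) →
        (x ∈ v.asIdeal ↔ y ∈ w'.asIdeal)) →
      ∃ τ : K' ≃ₐ[K] K',
        w'.asIdeal = Ideal.map (NumberField.RingOfIntegers.mapRingEquiv τ.toRingEquiv) w.asIdeal

end Fermat.Agent.LT.T7.H644

end
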