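import Mathlib
import Fermat.Agent.LT.T7.Spec
import Fermat.Agent.LT.T7.H644.SetupSpec

/-!
# Row LT, tower T7, leaf T7.L2.1.C0 `SetupC` (owner helper644): the number-theoretic part

OFF-MAIN.  Mathlib + the vocabulary `T7.PlaceOver`, `T7.IsCycExt` of `T7/Spec.lean`.  From the two
leaves of `SetupSpec.lean` (a moved place, transitivity): for a cyclic extension `K'/K` of prime
degree with generator `σ`, a level `𝔏 ≠ 0` of `K'` and a finite set `S₀` of places of `K'` there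
are a level `𝔫₀` of `K`, the set `S'` of the prime divisors of `𝔫₀ 𝒪_{K'}`, a place `u` of `K`
and its `σ`-orbit `o` with all the properties of the fields of `H893.IsL2Base` which do not
involve the adeles.
-/

set_option autoImplicit false
set_option linter.unusedSectionVars false

open IsDedekindDomain NumberField

noncomputable section

namespace Fermat.Agent.LT.T7.H644

open Fermat.Agent.LT.T7

section

variable {K K' : Type} [Field K] [NumberField K] [Field K'] [NumberField K'] [Algebra K K']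

/-! ## 1. Places over places -/

theorem placeOver_iff644 (v : HeightOneSpectrum (𝓞 K)) (w : HeightOneSpectrum (𝓞 K')) :
    PlaceOver K K' v w ↔ Ideal.comap (algebraMap (𝓞 K) (𝓞 K')) w.asIdeal = v.asIdeal := by
  constructor
  · intro h
    ext x
    rw [Ideal.mem_comap]
    exact (h x (algebraMap (𝓞 K) (𝓞 K') x) rfl).symm
  · intro h x y hxy
    have hy : y = algebraMap (𝓞 K) (𝓞 K') x := by
      apply RingOfIntegers.ext
      exact hxy
    rw [hy, ← h, Ideal.mem_comap]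

variable (K) in
/-- The place of `K` under a place of `K'`. -/
def under644 (w : HeightOneSpectrum (𝓞 K')) : HeightOneSpectrum (𝓞 K) where
  asIdeal := Ideal.comap (algebraMap (𝓞 K) (𝓞 K')) w.asIdeal
  isPrime := Ideal.comap_isPrime _ _
  ne_bot := Ideal.IsIntegral.comap_ne_bot (𝓞 K) w.ne_bot

theorem placeOver_under644 (w : HeightOneSpectrum (𝓞 K')) :
    PlaceOver K K' (under644 K w) w :=
  (placeOver_iff644 _ _).2 rfl

theorem eq_under644 {v : HeightOneSpectrum (𝓞 K)} {w : HeightOneSpectrum (𝓞 K')}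
    (h : PlaceOver K K' v w) : v = under644 K w := by
  ext1
  exact ((placeOver_iff644 v w).1 h).symm

/-- `𝔫 𝒪_{K'} ⊆ w` iff `𝔫 ⊆ v` for `w` over `v`. -/
theorem up_le_iff644 {v : HeightOneSpectrum (𝓞 K)} {w : HeightOneSpectrum (𝓞 K')}
    (h : PlaceOver K K' v w) (𝔫 : Ideal (𝓞 K)) :
    Ideal.map (algebraMap (𝓞 K) (𝓞 K')) 𝔫 ≤ w.asIdeal ↔ 𝔫 ≤ v.asIdeal := by
  rw [Ideal.map_le_iff_le_comap, (placeOver_iff644 v w).1 h]

/-! ## 2. The action of the Galois group on the places -/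

/-- The automorphism of `𝒪_{K'}` of an element of the Galois group. -/
abbrev galInt644 (τ : K' ≃ₐ[K] K') : 𝓞 K' ≃+* 𝓞 K' :=
  NumberField.RingOfIntegers.mapRingEquiv τ.toRingEquiv

theorem galInt_coe644 (τ : K' ≃ₐ[K] K') (x : 𝓞 K') : ((galInt644 τ x : 𝓞 K') : K') = τ (x : K') :=
  rfl

theorem galInt_mul644 (τ τ' : K' ≃ₐ[K] K') (x : 𝓞 K') :
    galInt644 (τ * τ') x = galInt644 τ (galInt644 τ' x) := by
  apply RingOfIntegers.ext
  rfl

theorem galInt_one644 (x : 𝓞 K') : galInt644 (1 : K' ≃ₐ[K] K') x = x := by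
  apply RingOfIntegers.ext
  rfl

theorem galInt_algebraMap644 (τ : K' ≃ₐ[K] K') (x : 𝓞 K) :
    galInt644 τ (algebraMap (𝓞 K) (𝓞 K') x) = algebraMap (𝓞 K) (𝓞 K') x := by
  apply RingOfIntegers.ext
  show τ (algebraMap K K' (x : K)) = algebraMap K K' (x : K)
  exact τ.commutes _

theorem mem_map_galInt644 (τ : K' ≃ₐ[K] K') (I : Ideal (𝓞 K')) (y : 𝓞 K') :
    y ∈ Ideal.map (galInt644 τ) I ↔ galInt644 τ⁻¹ y ∈ I := by
  rw [Ideal.mem_map_of_equiv]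
  constructor
  · rintro ⟨x, hx, rfl⟩
    rw [← galInt_mul644, inv_mul_cancel, galInt_one644]
    exact hx
  · intro h
    refine ⟨_, h, ?_⟩
    rw [← galInt_mul644, mul_inv_cancel, galInt_one644]

theorem map_galInt_mul644 (τ τ' : K' ≃ₐ[K] K') (I : Ideal (𝓞 K')) :
    Ideal.map (galInt644 (τ * τ')) I = Ideal.map (galInt644 τ) (Ideal.map (galInt644 τ') I) := by
  ext y
  rw [mem_map_galInt644, mem_map_galInt644, mem_map_galInt644, mul_inv_rev, galInt_mul644]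

theorem map_galInt_one644 (I : Ideal (𝓞 K')) :
    Ideal.map (galInt644 (1 : K' ≃ₐ[K] K')) I = I := by
  ext y
  rw [mem_map_galInt644, inv_one, galInt_one644]

theorem map_galInt_pow_fixed644 (τ : K' ≃ₐ[K] K') (I : Ideal (𝓞 K'))
    (h : Ideal.map (galInt644 τ) I = I) (m : ℕ) : Ideal.map (galInt644 (τ ^ m)) I = I := by
  induction m with
  | zero => rw [pow_zero]; exact map_galInt_one644 I
  | succ m ih => rw [pow_succ, map_galInt_mul644, h, ih]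

/-- The image of a place under an element of the Galois group. -/
def move644 (τ : K' ≃ₐ[K] K') (w : HeightOneSpectrum (𝓞 K')) : HeightOneSpectrum (𝓞 K') where
  asIdeal := Ideal.map (galInt644 τ) w.asIdeal
  isPrime := Ideal.map_isPrime_of_equiv (galInt644 τ)
  ne_bot := by
    rw [Ne, Ideal.map_eq_bot_iff_of_injective (galInt644 τ).injective]
    exact w.ne_bot

theorem placeOver_move644 (τ : K' ≃ₐ[K] K') {v : HeightOneSpectrum (𝓞 K)}
    {w : HeightOneSpectrum (𝓞 K')} (h : PlaceOver K K' v w) :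
    PlaceOver K K' v (move644 τ w) := by
  rw [placeOver_iff644] at h ⊢
  rw [← h]
  ext x
  rw [Ideal.mem_comap, Ideal.mem_comap]
  show algebraMap (𝓞 K) (𝓞 K') x ∈ Ideal.map (galInt644 τ) w.asIdeal ↔ _
  rw [mem_map_galInt644, galInt_algebraMap644]

/-! ## 3. The generator -/

theorem exists_generator644 (ℓ : ℕ) (h : IsCycExt K K' ℓ) :
    ∃ σ : K' ≃ₐ[K] K', σ ≠ 1 ∧ σ ^ ℓ = 1 ∧ (∀ τ : K' ≃ₐ[K] K', ∃ j < ℓ, τ = σ ^ j) ∧
      (∀ x : K', (∃ y : K, algebraMap K K' y = x) ↔ σ x = x) ∧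
      (∀ j : ℕ, 0 < j → j < ℓ → ∃ x : K', (σ ^ j) x ≠ x) := by
  classical
  have := h.galois
  have hℓ := h.prime
  have hcard : Nat.card (K' ≃ₐ[K] K') = ℓ := by
    rw [IsGalois.card_aut_eq_finrank, h.degree]
  have : Fact ℓ.Prime := ⟨hℓ⟩
  have : Finite (K' ≃ₐ[K] K') := Nat.finite_of_card_ne_zero (by rw [hcard]; exact hℓ.ne_zero)
  have hnt : Nontrivial (K' ≃ₐ[K] K') := by
    rw [← Finite.one_lt_card_iff_nontrivial, hcard]
    exact hℓ.one_lt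
  obtain ⟨σ, hσ⟩ := exists_ne (1 : K' ≃ₐ[K] K')
  have htop : Subgroup.zpowers σ = ⊤ := zpowers_eq_top_of_prime_card hcard hσ
  have hord : orderOf σ = ℓ := by
    rw [← Nat.card_zpowers, htop, Subgroup.card_top, hcard]
  have h1 : σ ^ ℓ = 1 := by rw [← hord]; exact pow_orderOf_eq_one σ
  refine ⟨σ, hσ, h1, ?_, ?_, ?_⟩
  · intro τ
    have hτ : τ ∈ Subgroup.zpowers σ := by rw [htop]; exact Subgroup.mem_top τ
    rw [mem_zpowers_iff_mem_range_orderOf, hord] at hτ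
    obtain ⟨j, hj, rfl⟩ := Finset.mem_image.1 hτ
    exact ⟨j, Finset.mem_range.1 hj, rfl⟩
  · intro x
    constructor
    · rintro ⟨y, rfl⟩
      exact σ.commutes y
    · intro hx
      have hall : ∀ f : K' ≃ₐ[K] K', f x = x := by
        intro f
        have hf : f ∈ Subgroup.zpowers σ := by rw [htop]; exact Subgroup.mem_top f
        obtain ⟨n, rfl⟩ := Subgroup.mem_zpowers_iff.1 hf
        have hfix : σ ∈ MulAction.stabilizer (K' ≃ₐ[K] K') x := hx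
        exact (Subgroup.zpow_mem _ hfix n)
      exact (IsGalois.mem_range_algebraMap_iff_fixed (F := K) (E := K') x).2 hall
  · intro j hj0 hjl
    by_contra hcon
    have hcon' : ∀ x : K', (σ ^ j) x = x := by
      intro x
      by_contra hx
      exact hcon ⟨x, hx⟩
    have h1 : σ ^ j = 1 := AlgEquiv.ext hcon'
    exact pow_ne_one_of_lt_orderOf hj0.ne' (by rw [hord]; exact hjl) h1

/-! ## 4. The levels and the orbit -/

/-- The prime divisors of a nonzero ideal, as a finite set. -/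
theorem exists_factorSet644 {R : Type} [CommRing R] [IsDedekindDomain R] (I : Ideal R)
    (hI : I ≠ ⊥) :
    ∃ S : Finset (HeightOneSpectrum R), ∀ w : HeightOneSpectrum R, w ∈ S ↔ w.asIdeal ∣ I := by
  classical
  have hI0 : I ≠ 0 := hI
  refine ⟨(Ideal.finite_factors hI0).toFinset, fun w => ?_⟩
  rw [Set.Finite.mem_toFinset]
  rfl

/-- The auxiliary ideal of `K`: contained in `𝔏 ∩ 𝒪_K` and in the places under `S₀`. -/
theorem exists_auxIdeal644 (𝔏 : Ideal (𝓞 K')) (h𝔏 : 𝔏 ≠ ⊥)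
    (S₀ : Finset (HeightOneSpectrum (𝓞 K'))) :
    ∃ J : Ideal (𝓞 K), J ≠ ⊥ ∧ Ideal.map (algebraMap (𝓞 K) (𝓞 K')) J ≤ 𝔏 ∧
      ∀ w ∈ S₀, J ≤ Ideal.comap (algebraMap (𝓞 K) (𝓞 K')) w.asIdeal := by
  classical
  refine ⟨Ideal.comap (algebraMap (𝓞 K) (𝓞 K')) 𝔏 *
    ∏ w ∈ S₀, Ideal.comap (algebraMap (𝓞 K) (𝓞 K')) w.asIdeal, ?_, ?_, ?_⟩
  · refine mul_ne_zero (Ideal.IsIntegral.comap_ne_bot (𝓞 K) h𝔏) ?_
    rw [Finset.prod_ne_zero_iff]
    intro w _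
    exact Ideal.IsIntegral.comap_ne_bot (𝓞 K) w.ne_bot
  · exact le_trans (Ideal.map_mono Ideal.mul_le_left) Ideal.map_comap_le
  · intro w hw
    refine le_trans Ideal.mul_le_right ?_
    exact le_trans Ideal.prod_le_inf (Finset.inf_le hw)

theorem up_ne_bot644 (𝔫 : Ideal (𝓞 K)) (h : 𝔫 ≠ ⊥) :
    Ideal.map (algebraMap (𝓞 K) (𝓞 K')) 𝔫 ≠ ⊥ := by
  rw [Ne, Ideal.map_eq_bot_iff_of_injective (FaithfulSMul.algebraMap_injective (𝓞 K) (𝓞 K'))]
  exact h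

/-- **The number-theoretic part of `SetupC`.** -/
theorem exists_setupNT644 (hM : MovedPlaceC644) (hT : GalTransC644) (ℓ : ℕ)
    (h : IsCycExt K K' ℓ) (σ : K' ≃ₐ[K] K') (hσ1 : σ ≠ 1) (hσℓ : σ ^ ℓ = 1)
    (hgen : ∀ τ : K' ≃ₐ[K] K', ∃ j < ℓ, τ = σ ^ j)
    (𝔏 : Ideal (𝓞 K')) (h𝔏 : 𝔏 ≠ ⊥) (S₀ : Finset (HeightOneSpectrum (𝓞 K'))) :
    ∃ (𝔫₀ : Ideal (𝓞 K)) (S' : Finset (HeightOneSpectrum (𝓞 K')))
      (u : HeightOneSpectrum (𝓞 K)) (o : ℕ → HeightOneSpectrum (𝓞 K')),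
      𝔫₀ ≠ ⊥ ∧ Ideal.map (algebraMap (𝓞 K) (𝓞 K')) 𝔫₀ ≤ 𝔏 ∧
      (∀ w, w ∈ S' ↔ w.asIdeal ∣ Ideal.map (algebraMap (𝓞 K) (𝓞 K')) 𝔫₀) ∧
      (∀ w ∈ S₀, w ∈ S') ∧
      (∀ j, (o (j + 1)).asIdeal = Ideal.map (galInt644 σ) (o j).asIdeal) ∧
      (∀ j, 0 < j → j < ℓ → o j ≠ o 0) ∧
      (∀ j, PlaceOver K K' u (o j)) ∧
      (∀ j, o j ∈ S') ∧
      (∀ j, ¬ (o j).asIdeal ∣ 𝔏) ∧
      u.asIdeal ∣ 𝔫₀ ∧ ¬ u.asIdeal ^ 2 ∣ 𝔫₀ ∧
      (∀ w, PlaceOver K K' u w → ∃ j < ℓ, w = o j) ∧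
      (∀ (v : HeightOneSpectrum (𝓞 K)) (w w' : HeightOneSpectrum (𝓞 K')),
        PlaceOver K K' v w → PlaceOver K K' v w' → w ∈ S' → w' ∈ S') := by
  classical
  obtain ⟨J, hJ0, hJ𝔏, hJS⟩ := exists_auxIdeal644 (K := K) 𝔏 h𝔏 S₀
  obtain ⟨T, hT'⟩ := exists_factorSet644 _ (up_ne_bot644 (K' := K') J hJ0)
  -- the moved place
  have hσx : ∃ x : K', σ.toRingEquiv x ≠ x := by
    by_contra hcon
    push Not at hcon
    exact hσ1 (AlgEquiv.ext hcon)
  obtain ⟨w₀, hw₀T, hw₀σ⟩ := hM K' σ.toRingEquiv hσx T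
  have hw₀J : ¬ Ideal.map (algebraMap (𝓞 K) (𝓞 K')) J ≤ w₀.asIdeal := by
    intro hle
    apply hw₀T
    rw [hT']
    exact Ideal.dvd_iff_le.2 hle
  obtain ⟨u, hu₀⟩ : ∃ u : HeightOneSpectrum (𝓞 K), PlaceOver K K' u w₀ :=
    ⟨under644 K w₀, placeOver_under644 w₀⟩
  have huJ : ¬ J ≤ u.asIdeal := fun hle => hw₀J ((up_le_iff644 hu₀ J).2 hle)
  obtain ⟨𝔫₀, h𝔫₀⟩ : ∃ 𝔫₀ : Ideal (𝓞 K), 𝔫₀ = u.asIdeal * J := ⟨_, rfl⟩
  have h𝔫₀0 : 𝔫₀ ≠ ⊥ := by
    rw [h𝔫₀]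
    exact mul_ne_zero u.ne_bot hJ0
  have h𝔫₀u : 𝔫₀ ≤ u.asIdeal := by
    rw [h𝔫₀]
    exact Ideal.mul_le_left
  have h𝔫₀J : 𝔫₀ ≤ J := by
    rw [h𝔫₀]
    exact Ideal.mul_le_right
  obtain ⟨S', hmemS'⟩ := exists_factorSet644 _ (up_ne_bot644 (K' := K') 𝔫₀ h𝔫₀0)
  -- membership in `S'` through the place below
  have hS'iff : ∀ (v : HeightOneSpectrum (𝓞 K)) (w : HeightOneSpectrum (𝓞 K')),
      PlaceOver K K' v w → (w ∈ S' ↔ 𝔫₀ ≤ v.asIdeal) := by
    intro v w hvw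
    rw [hmemS', Ideal.dvd_iff_le, up_le_iff644 hvw]
  obtain ⟨o, ho⟩ : ∃ o : ℕ → HeightOneSpectrum (𝓞 K'),
      ∀ j, (o j).asIdeal = Ideal.map (galInt644 (σ ^ j)) w₀.asIdeal :=
    ⟨fun j => move644 (σ ^ j) w₀, fun _ => rfl⟩
  have hover : ∀ j, PlaceOver K K' u (o j) := by
    intro j
    have h1 : o j = move644 (σ ^ j) w₀ := by
      ext1
      exact ho j
    rw [h1]
    exact placeOver_move644 (σ ^ j) hu₀
  refine ⟨𝔫₀, S', u, o, h𝔫₀0, ?_, hmemS', ?_, ?_, ?_, hover, ?_, ?_, ?_, ?_, ?_, ?_⟩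
  · -- the level
    exact le_trans (Ideal.map_mono h𝔫₀J) hJ𝔏
  · -- `S₀ ⊆ S'`
    intro w hw
    rw [hS'iff _ w (placeOver_under644 w)]
    exact le_trans h𝔫₀J (hJS w hw)
  · -- the orbit relation
    intro j
    rw [ho, ho, pow_succ', map_galInt_mul644]
  · -- the orbit has `ℓ` elements
    intro j hj0 hjl hcon
    have h1 : Ideal.map (galInt644 (σ ^ j)) w₀.asIdeal = w₀.asIdeal := by
      have h0 : (o j).asIdeal = (o 0).asIdeal := congrArg HeightOneSpectrum.asIdeal hcon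
      rw [ho, ho, pow_zero, map_galInt_one644] at h0
      exact h0
    have hcop : Nat.Coprime j ℓ :=
      ((Nat.Prime.coprime_iff_not_dvd h.prime).2 (Nat.not_dvd_of_pos_of_lt hj0 hjl)).symm
    obtain ⟨m, -, hm⟩ := Nat.exists_mul_mod_eq_one_of_coprime hcop h.prime.one_lt
    have h2 := map_galInt_pow_fixed644 (σ ^ j) w₀.asIdeal h1 m
    rw [← pow_mul, pow_eq_pow_mod (j * m) hσℓ, hm, pow_one] at h2
    exact hw₀σ h2
  · -- the orbit divides the base level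
    intro j
    rw [hS'iff u (o j) (hover j)]
    exact h𝔫₀u
  · -- the orbit is prime to the level
    intro j hdvd
    have h1 : 𝔏 ≤ (o j).asIdeal := Ideal.dvd_iff_le.1 hdvd
    have h2 : Ideal.map (algebraMap (𝓞 K) (𝓞 K')) J ≤ (o j).asIdeal := le_trans hJ𝔏 h1
    rw [up_le_iff644 (hover j)] at h2
    exact huJ h2
  · exact Dvd.intro J h𝔫₀.symm
  · intro hdvd
    rw [pow_two, h𝔫₀] at hdvd
    have hu0 : u.asIdeal ≠ 0 := u.ne_bot
    have h1 : u.asIdeal ∣ J := (mul_dvd_mul_iff_left hu0).1 hdvd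
    exact huJ (Ideal.dvd_iff_le.1 h1)
  · -- the orbit is the fibre
    intro w hw
    obtain ⟨τ, hτ⟩ := hT K K' h.galois u w₀ w hu₀ hw
    obtain ⟨j, hj, rfl⟩ := hgen τ
    refine ⟨j, hj, ?_⟩
    ext1
    rw [ho]
    exact hτ
  · intro v w w' hw hw' hmem
    rw [hS'iff v w' hw']
    exact (hS'iff v w hw).1 hmem

end

end Fermat.Agent.LT.T7.H644

end
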