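import Mathlib
import Fermat.Agent.LT.T7.H893.SupplySpec
import Fermat.Agent.LT.T7.H930.CompDataExists
import Fermat.Agent.LT.T7.H644.SetupNT

/-!
# Row LT, tower T7, leaf T7.L2.1.C0 `SetupC` (owner helper644): the proved top

OFF-MAIN.  Spec: `T7/H893/SupplySpec.lean` (helper893, sha256 c18d8efa), byte-identical copy.

    setupC_of644 : MovedPlaceC644 → GalTransC644 → H893.SetupC K K'

The common part of the data of level 2: the generator `σ` of the Galois group with its adelic
extension and the frames (adapters of helper930, helper62 on the closed tower T1), the place `u`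
with its `σ`-orbit and the levels (`SetupNT.lean`, from the two Mathlib-only leaves of
`SetupSpec.lean`).
-/

set_option autoImplicit false

open IsDedekindDomain NumberField MeasureTheory

noncomputable section

namespace Fermat.Agent.LT.T7.H644

open Fermat.Agent.LT.H556 Fermat.Agent.LT.H556.A0 Fermat.Agent.LT.T7 Fermat.Agent.LT.T1.H930
  Fermat.Agent.LT.T7.H930

attribute [local instance] Fermat.Agent.LT.T5.instMeasurableSpaceG

variable (K K' : Type) [Field K] [NumberField K] [Field K'] [NumberField K'] [Algebra K K']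

/-- **T7.L2.1.C0 = SETUP, from the two number-theoretic leaves.** -/
theorem setupC_of644 (hM : MovedPlaceC644) (hT : GalTransC644) : H893.SetupC K K' := by
  intro ℓ h _ _ Φ _ hconst
  obtain ⟨σ, hσ1, hσℓ, hgen, hfix, hfaith⟩ := exists_generator644 (K := K) (K' := K') ℓ h
  obtain ⟨S₀, hS₀⟩ := hconst
  obtain ⟨𝔫₀, S', u, o, h𝔫₀0, hle, hmem, hS₀S', hrel, hne, hover, hlev, hgood, hu1, hu2, hall,
    hfib⟩ := exists_setupNT644 hM hT ℓ h σ hσ1 hσℓ hgen Φ.level Φ.level_ne_bot S₀
  obtain ⟨μ, F, r, hF, hr, -⟩ :=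
    Fermat.Agent.LT.T5.H62.frame_exists_of_T1Out62 K 𝔫₀ (Fermat.Agent.LT.T1.t1Out K)
  obtain ⟨μ', F', r', hF', hr', -⟩ :=
    Fermat.Agent.LT.T5.H62.frame_exists_of_T1Out62 K'
      (Ideal.map (algebraMap (𝓞 K) (𝓞 K')) 𝔫₀) (Fermat.Agent.LT.T1.t1Out K')
  have hLC : LocallyCompactSpace (G K') := (Fermat.Agent.LT.T1.t1Out K').locComp.2.1
  have hSC : SecondCountableTopology (G K') := (Fermat.Agent.LT.T1.t1Out K').locComp.2.2.2
  refine ⟨⟨ℓ, adelicAut930 σ.toRingEquiv, (algebraMap K K').fieldRange, ⟨μ, F, r⟩, ⟨μ', F', r'⟩,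
    Ideal.map (algebraMap (𝓞 K) (𝓞 K')) 𝔫₀, S', u, o⟩, ?_⟩
  refine
    { deg := rfl
      cyc := ⟨h.prime.pos, ?_, ?_, ?_⟩
      base := fun x => RingHom.mem_fieldRange
      frame := ⟨hF, hr⟩
      frame' := ⟨hF', hr'⟩
      aut := fun 𝔫 => autPreserves_all930 hLC hSC (adelicAut930 σ.toRingEquiv) _
        (map_level_stable930 σ 𝔫) μ' hF'.haar r' hr'
      level_le := hle
      mem_S' := hmem
      const := fun w hw w' hw' v hv hv' =>
        hS₀ w (fun hw0 => hw (hS₀S' w hw0)) w' (fun hw0 => hw' (hS₀S' w' hw0)) v hv hv'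
      orbit_rel := hrel
      orbit_ne := hne
      orbit_over := hover
      orbit_level := hlev
      orbit_good := hgood
      base_level := ⟨𝔫₀, h𝔫₀0, rfl, hu1, hu2⟩
      orbit_all := hall
      fibre := hfib }
  · intro x
    show ((σ.toRingEquiv : RingAut K') ^ ℓ) x = x
    rw [toRingEquiv_pow930, hσℓ]
    rfl
  · intro x
    show x ∈ (algebraMap K K').fieldRange ↔ σ x = x
    rw [RingHom.mem_fieldRange]
    exact hfix x
  · intro j hj0 hjl
    obtain ⟨x, hx⟩ := hfaith j hj0 hjl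
    refine ⟨x, ?_⟩
    show ((σ.toRingEquiv : RingAut K') ^ j) x ≠ x
    rw [toRingEquiv_pow930]
    exact hx

end Fermat.Agent.LT.T7.H644

end
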