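import Mathlib
import Fermat.Agent.LT.T7.H644.Setup
import Fermat.Agent.LT.T7.H729.MovedPlace
import Fermat.Agent.LT.T7.H648.GalTrans

/-!
# Row LT, tower T7, leaf T7.L2.1.C0 `SetupC` (owner helper644): CLOSED

OFF-MAIN.  `setupC644 (K K') : H893.SetupC K K'`, VERBATIM the frozen Prop of
`T7/H893/SupplySpec.lean` (helper893, sha256 c18d8efa), UNCONDITIONAL:
the proved top `setupC_of644` (`Setup.lean`) on the two Mathlib-only leaves
`movedPlaceC729` (helper729) and `galTransC648` (helper648).
-/

set_option autoImplicit false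

open IsDedekindDomain NumberField

noncomputable section

namespace Fermat.Agent.LT.T7.H644

variable (K K' : Type) [Field K] [NumberField K] [Field K'] [NumberField K'] [Algebra K K']

/-- **LEAF T7.L2.1.C0 = SETUP, CLOSED.** -/
theorem setupC644 : Fermat.Agent.LT.T7.H893.SetupC K K' :=
  setupC_of644 K K' Fermat.Agent.LT.T7.H729.movedPlaceC729 Fermat.Agent.LT.T7.H648.galTransC648

end Fermat.Agent.LT.T7.H644

end
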